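import Mathlib
import Fermat.Agent.Crux.S1.NilTrace

/-!
# S36 / Alg : the shape of the discriminant  ((J) and (I) of the "disc package")

`B` a domain, `C` a finite free `B`-algebra with basis `b`.

* `not_dvd_discr_of_reduced` : `h ∈ B` prime of residue characteristic zero, `C / hC` reduced
  (elementary form: `z² ∈ hC ⟹ z ∈ hC`)  ⟹  `h ∤ disc(b)`;
* `discr_eq_unit_mul_pow` (J): `B` a UFD, `π` prime, every natural number `≠ 0` divides a power of `π`,
  `C / hC` reduced for all primes `h ≁ π`, `disc(b) ≠ 0`  ⟹  `disc(b) = unit * π ^ a`;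
* `discr_dvd_discr` (I): `disc(b) ∣ disc(v)` for every family `v : ι → C`;
* `le_of_not_pow_dvd_discr` : `disc(b) = u π^a`, `π^(a₀+1) ∤ disc(v)`  ⟹  `a ≤ a₀`.
-/

set_option autoImplicit false
set_option linter.unusedSectionVars false

open scoped TensorProduct
open Matrix

namespace Fermat.Agent.S36.Alg

section Reduced

variable {B C ι : Type*} [CommRing B] [CommRing C] [Algebra B C]

/-- from `z² ∈ hC ⟹ z ∈ hC` to `z^k ∈ hC ⟹ z ∈ hC`. -/
theorem mem_of_pow_mem_of_sq {h : B}
    (hred : ∀ z w : C, z ^ 2 = h • w → ∃ z' : C, z = h • z') :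
    ∀ (k : ℕ) (z w : C), z ^ k = h • w → ∃ z' : C, z = h • z' := by
  intro k
  induction k using Nat.strong_induction_on with
  | _ k ih =>
    intro z w hz
    rcases Nat.lt_or_ge k 2 with hk2 | hk2
    · obtain rfl | rfl : k = 0 ∨ k = 1 := by omega
      · refine ⟨w * z, ?_⟩
        rw [← smul_mul_assoc, ← hz, pow_zero, one_mul]
      · exact ⟨w, by simpa using hz⟩
    · set j := k - k / 2 with hj
      have hjk : j < k := by omega
      have h2 : (z ^ j) ^ 2 = h • (w * z ^ (2 * j - k)) := by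
        rw [← pow_mul, ← smul_mul_assoc, ← hz, ← pow_add]
        congr 1
        omega
      obtain ⟨z₁, hz₁⟩ := hred _ _ h2
      exact ih j hjk z z₁ hz₁

theorem trace_one_tmul (κ : Type*) [Field κ] [Algebra B κ] [Module.Free B C] [Module.Finite B C]
    (c : C) : Algebra.trace κ (κ ⊗[B] C) (1 ⊗ₜ[B] c) = algebraMap B κ (Algebra.trace B C c) := by
  rw [Algebra.trace_apply, Algebra.trace_apply, ← LinearMap.trace_baseChange]
  congr 1
  ext x
  simp

/-- an element of the radical of the trace form modulo `h` is nilpotent modulo `h`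
(residue characteristic zero). -/
theorem exists_pow_eq_smul_of_trace [Fintype ι] [DecidableEq ι] (κ : Type*) [Field κ] [CharZero κ]
    [Algebra B κ] {h : B} (hφ : ∀ x : B, algebraMap B κ x = 0 ↔ h ∣ x) (b : Module.Basis ι B C)
    (z : C) (htr : ∀ y : C, h ∣ Algebra.trace B C (z * y)) :
    ∃ (k : ℕ) (w : C), z ^ k = h • w := by
  have hfree : Module.Free B C := Module.Free.of_basis b
  have hfin : Module.Finite B C := Module.Finite.of_basis b
  have hnil : IsNilpotent ((1 : κ) ⊗ₜ[B] z) := by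
    apply Fermat.Agent.Crux.S1.isNilpotent_of_forall_trace_mul_eq_zero (κ := κ)
    intro w
    induction w using TensorProduct.induction_on with
    | zero => simp
    | add x y hx hy => rw [mul_add, map_add, hx, hy, add_zero]
    | tmul a y =>
      have h1 : ((1 : κ) ⊗ₜ[B] z) * (a ⊗ₜ[B] y) = a • ((1 : κ) ⊗ₜ[B] (z * y)) := by
        rw [Algebra.TensorProduct.tmul_mul_tmul, one_mul, TensorProduct.smul_tmul', smul_eq_mul,
          mul_one]
      rw [h1, map_smul, trace_one_tmul, smul_eq_mul, (hφ _).mpr (htr y), mul_zero]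
  obtain ⟨k, hk⟩ := hnil
  rw [Algebra.TensorProduct.tmul_pow, one_pow] at hk
  have hcoord : ∀ i, h ∣ b.repr (z ^ k) i := by
    intro i
    rw [← hφ]
    have h1 : (Algebra.TensorProduct.basis κ b).repr ((1 : κ) ⊗ₜ[B] (z ^ k)) i =
        algebraMap B κ (b.repr (z ^ k) i) := by
      rw [Algebra.TensorProduct.basis_repr_tmul]
      simp
    rw [← h1, hk]
    simp
  choose d hd using hcoord
  refine ⟨k, ∑ i, d i • b i, ?_⟩
  rw [← b.sum_repr (z ^ k), Finset.smul_sum]
  refine Finset.sum_congr rfl fun i _ => ?_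
  rw [hd, smul_smul]

/-- `h` prime with residue characteristic zero, `C/hC` reduced ⟹ `h ∤ disc`. -/
theorem not_dvd_discr_of_reduced [IsDomain B] [Fintype ι] [DecidableEq ι]
    (b : Module.Basis ι B C) {h : B} (hh : Prime h)
    (hchar : ∀ n : ℕ, n ≠ 0 → ¬ h ∣ (n : B))
    (hred : ∀ z w : C, z ^ 2 = h • w → ∃ z' : C, z = h • z') :
    ¬ h ∣ Algebra.discr B b := by
  classical
  intro hdvd
  set I : Ideal B := Ideal.span {h} with hI
  have hIprime : I.IsPrime := (Ideal.span_singleton_prime hh.ne_zero).mpr hh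
  have hdom : IsDomain (B ⧸ I) := Ideal.Quotient.isDomain I
  have hφ : ∀ x : B, algebraMap B (FractionRing (B ⧸ I)) x = 0 ↔ h ∣ x := by
    intro x
    rw [IsScalarTower.algebraMap_apply B (B ⧸ I) (FractionRing (B ⧸ I)),
      IsFractionRing.to_map_eq_zero_iff, Ideal.Quotient.algebraMap_eq,
      Ideal.Quotient.eq_zero_iff_mem, hI, Ideal.mem_span_singleton]
  have hcharκ : CharZero (FractionRing (B ⧸ I)) := by
    refine charZero_of_inj_zero fun n hn => ?_
    by_contra hn0
    apply hchar n hn0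
    rw [← hφ, map_natCast]
    exact hn
  -- a vector in the kernel of the trace matrix modulo `h`
  set T := Algebra.traceMatrix B b with hT
  have hdet : ((Ideal.Quotient.mk I).mapMatrix T).det = 0 := by
    rw [← RingHom.map_det, Ideal.Quotient.eq_zero_iff_mem, hI, Ideal.mem_span_singleton]
    exact hdvd
  obtain ⟨v, hv0, hv⟩ := Matrix.exists_mulVec_eq_zero_iff.mpr hdet
  choose c hc using fun i => Ideal.Quotient.mk_surjective (v i)
  set z : C := ∑ i, c i • b i with hz
  have htr : ∀ j, h ∣ Algebra.trace B C (z * b j) := by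
    intro j
    have h1 : Algebra.trace B C (z * b j) = ∑ i, T j i * c i := by
      rw [hz, Finset.sum_mul, map_sum]
      refine Finset.sum_congr rfl fun i _ => ?_
      rw [smul_mul_assoc, map_smul, smul_eq_mul, hT, Algebra.traceMatrix_apply,
        Algebra.traceForm_apply, mul_comm (b i) (b j), mul_comm]
    have h2 := congrFun hv j
    rw [Matrix.mulVec, dotProduct] at h2
    simp only [RingHom.mapMatrix_apply, Matrix.map_apply, Pi.zero_apply, ← hc, ← map_mul,
      ← map_sum] at h2
    rw [Ideal.Quotient.eq_zero_iff_mem, hI, Ideal.mem_span_singleton] at h2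
    rw [h1]; exact h2
  have htr' : ∀ y : C, h ∣ Algebra.trace B C (z * y) := by
    intro y
    rw [← b.sum_repr y, Finset.mul_sum, map_sum]
    refine Finset.dvd_sum fun j _ => ?_
    rw [mul_smul_comm, map_smul, smul_eq_mul]
    exact Dvd.dvd.mul_left (htr j) _
  obtain ⟨k, w, hzk⟩ := exists_pow_eq_smul_of_trace (FractionRing (B ⧸ I)) hφ b z htr'
  obtain ⟨z', hz'⟩ := mem_of_pow_mem_of_sq hred k z _ hzk
  apply hv0
  funext i
  have h1 : b.repr z i = c i := by
    rw [hz, b.repr_sum_self]
  have h2 : b.repr z i = h * b.repr z' i := by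
    rw [hz', map_smul, Finsupp.smul_apply, smul_eq_mul]
  rw [← hc, Pi.zero_apply, Ideal.Quotient.eq_zero_iff_mem, hI, Ideal.mem_span_singleton, ← h1, h2]
  exact dvd_mul_right _ _

end Reduced

section Shape

variable {B C ι : Type*} [CommRing B] [IsDomain B] [UniqueFactorizationMonoid B]
  [CommRing C] [Algebra B C] [Fintype ι] [DecidableEq ι]

/-- (J) -/
theorem discr_eq_unit_mul_pow (b : Module.Basis ι B C) {π : B} (hπ : Prime π)
    (hchar : ∀ n : ℕ, n ≠ 0 → ∃ k : ℕ, (n : B) ∣ π ^ k)
    (hdisc : Algebra.discr B b ≠ 0)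
    (hred : ∀ h : B, Prime h → ¬ Associated h π →
      ∀ z w : C, z ^ 2 = h • w → ∃ z' : C, z = h • z') :
    ∃ (u : B) (a : ℕ), IsUnit u ∧ Algebra.discr B b = u * π ^ a := by
  obtain ⟨a, u, hu, hdu⟩ := WfDvdMonoid.max_power_factor hdisc hπ.irreducible
  refine ⟨u, a, ?_, by rw [hdu, mul_comm]⟩
  by_contra hnu
  have hu0 : u ≠ 0 := fun h0 => hu (h0 ▸ dvd_zero π)
  obtain ⟨h, hirr, hdvd⟩ := WfDvdMonoid.exists_irreducible_factor hnu hu0
  have hh : Prime h := UniqueFactorizationMonoid.irreducible_iff_prime.mp hirr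
  have hna : ¬ Associated h π := fun has => hu (has.symm.dvd.trans hdvd)
  refine not_dvd_discr_of_reduced b hh ?_ (hred h hh hna) ?_
  · intro n hn hdn
    obtain ⟨k, hk⟩ := hchar n hn
    have h1 : h ∣ π := hh.dvd_of_dvd_pow (hdn.trans hk)
    exact hna (hh.associated_of_dvd hπ h1)
  · rw [hdu]
    exact Dvd.dvd.mul_left hdvd _

end Shape

section Bound

variable {B C ι : Type*} [CommRing B] [CommRing C] [Algebra B C] [Fintype ι] [DecidableEq ι]

/-- (I) -/
theorem discr_dvd_discr (b : Module.Basis ι B C) (v : ι → C) :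
    Algebra.discr B b ∣ Algebra.discr B v := by
  have h : v = (b : ι → C) ᵥ* ((Matrix.of fun i j => b.repr (v j) i).map (algebraMap B C)) := by
    funext j
    rw [Matrix.vecMul, dotProduct]
    simp only [Matrix.map_apply, Matrix.of_apply]
    conv_lhs => rw [← b.sum_repr (v j)]
    refine Finset.sum_congr rfl fun i _ => ?_
    rw [Algebra.smul_def, mul_comm]
  rw [h, Algebra.discr_of_matrix_vecMul]
  exact dvd_mul_left _ _

theorem le_of_not_pow_dvd_discr (b : Module.Basis ι B C) (v : ι → C) {π u : B} {a a₀ : ℕ}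
    (hb : Algebra.discr B b = u * π ^ a) (hv : ¬ π ^ (a₀ + 1) ∣ Algebra.discr B v) : a ≤ a₀ := by
  by_contra hlt
  apply hv
  have h1 : π ^ (a₀ + 1) ∣ π ^ a := pow_dvd_pow π (by omega)
  exact (h1.trans (Dvd.intro_left u hb.symm)).trans (discr_dvd_discr b v)

end Bound

end Fermat.Agent.S36.Alg
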