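import Mathlib
import Fermat.Agent.S26.Alg.TwoDim

/-!
# S36 / Alg : modules over a two-dimensional regular local ring  (toolkit (T1), (T2), (K))

Format of `S26/Alg/TwoDim.lean`: `B` a noetherian local domain, `π ∈ B` a prime element,
`red : B → A` a surjection onto a DVR with kernel `(π)`.

* `mem_of_pow_mul_mem` (T1): `x ∈ Frac B`, `π^i x ∈ B`, `b^j x ∈ B`, `π ∤ b`  ⟹  `x ∈ B`
  (any domain, any prime element);
* `free_of_reg` (T2): a f.g. torsion free `B`-module `N` with `[b z = π w, π ∤ b ⟹ z ∈ π N]` is free;
* `isIntegral_of_smul` : `r ∈ L`, `π r` and `b r` integral over `B`, `π ∤ b` ⟹ `r` integral;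
* `free_integralClosure`, `finite_integralClosure`, `finrank_integralClosure` (K):
  the integral closure `C` of `B` in a finite separable extension `L` of `Frac B` is a free
  `B`-module of rank `[L : Frac B]`.
-/

set_option autoImplicit false
set_option linter.unusedSectionVars false

open Polynomial

namespace Fermat.Agent.S36.Alg

section T1

variable {B : Type*} [CommRing B] [IsDomain B] {K : Type*} [Field K] [Algebra B K]
  [IsFractionRing B K]

/-- (T1) -/
theorem mem_of_pow_mul_mem {π b : B} (hπ : Prime π) (hb : ¬ π ∣ b) (i j : ℕ) (x : K)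
    (h1 : ∃ u : B, algebraMap B K u = x * algebraMap B K π ^ i)
    (h2 : ∃ v : B, algebraMap B K v = x * algebraMap B K b ^ j) :
    ∃ c : B, algebraMap B K c = x := by
  obtain ⟨u, hu⟩ := h1
  obtain ⟨v, hv⟩ := h2
  have hinj := IsFractionRing.injective B K
  have h3 : b ^ j * u = π ^ i * v := by
    apply hinj
    rw [map_mul, map_mul, map_pow, map_pow, hu, hv]
    ring
  have hbj : ¬ π ∣ b ^ j := fun h => hb (hπ.dvd_of_dvd_pow h)
  obtain ⟨c, rfl⟩ : π ^ i ∣ u := hπ.pow_dvd_of_dvd_mul_left i hbj ⟨v, h3⟩
  refine ⟨c, ?_⟩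
  have hπK : algebraMap B K π ^ i ≠ 0 :=
    pow_ne_zero _ (by simpa using hπ.ne_zero)
  rw [map_mul, map_pow, mul_comm] at hu
  exact mul_right_cancel₀ hπK hu

end T1

section T2

variable {B : Type*} [CommRing B] [IsDomain B] [IsLocalRing B] [IsNoetherianRing B]

/-- (T2), with the hypothesis "`B/(π)` is a PID". -/
theorem free_of_reg_aux {π : B} (hπ : Prime π)
    (hpid : IsPrincipalIdealRing (B ⧸ Ideal.span {π}))
    {N : Type*} [AddCommGroup N] [Module B N] [Module.Finite B N] [Module.IsTorsionFree B N]
    (hreg : ∀ b : B, ¬ π ∣ b → ∀ z w : N, b • z = π • w → ∃ z' : N, z = π • z') :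
    Module.Free B N := by
  classical
  set I : Ideal B := Ideal.span {π} with hI
  have hIprime : I.IsPrime := (Ideal.span_singleton_prime hπ.ne_zero).mpr hπ
  have hdom : IsDomain (B ⧸ I) := Ideal.Quotient.isDomain I
  have hmemIN : ∀ z : N, z ∈ (I • ⊤ : Submodule B N) ↔ ∃ z' : N, z = π • z' := by
    intro z
    rw [hI, Submodule.ideal_span_singleton_smul, Submodule.mem_smul_pointwise_iff_exists]
    constructor
    · rintro ⟨z', -, rfl⟩; exact ⟨z', rfl⟩
    · rintro ⟨z', rfl⟩; exact ⟨z', trivial, rfl⟩
  -- the quotient is torsion free over `B ⧸ I`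
  have htf : Module.IsTorsionFree (B ⧸ I) (N ⧸ (I • ⊤ : Submodule B N)) := by
    refine ⟨fun r hr => ?_⟩
    obtain ⟨b, rfl⟩ := Ideal.Quotient.mk_surjective r
    have hb : ¬ π ∣ b := by
      intro h
      have : (Ideal.Quotient.mk I b) = 0 := by
        rw [Ideal.Quotient.eq_zero_iff_mem, hI, Ideal.mem_span_singleton]; exact h
      exact hr.ne_zero this
    intro z₁ z₂ h
    obtain ⟨z₁, rfl⟩ := Submodule.Quotient.mk_surjective _ z₁
    obtain ⟨z₂, rfl⟩ := Submodule.Quotient.mk_surjective _ z₂
    have h' : (Submodule.Quotient.mk (b • z₁) : N ⧸ (I • ⊤ : Submodule B N)) =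
        Submodule.Quotient.mk (b • z₂) := h
    rw [Submodule.Quotient.eq, ← smul_sub, hmemIN] at h'
    obtain ⟨w, hw⟩ := h'
    obtain ⟨z', hz'⟩ := hreg b hb _ w hw
    rw [Submodule.Quotient.eq, hmemIN]
    exact ⟨z', hz'⟩
  have hfin : Module.Finite (B ⧸ I) (N ⧸ (I • ⊤ : Submodule B N)) :=
    Module.Finite.of_restrictScalars_finite B _ _
  have hfree : Module.Free (B ⧸ I) (N ⧸ (I • ⊤ : Submodule B N)) :=
    Module.free_of_finite_type_torsion_free'
  let e := Module.Free.chooseBasis (B ⧸ I) (N ⧸ (I • ⊤ : Submodule B N))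
  have : Fintype (Module.Free.ChooseBasisIndex (B ⧸ I) (N ⧸ (I • ⊤ : Submodule B N))) :=
    Module.Free.ChooseBasisIndex.fintype _ _
  choose n hn using fun i => Submodule.Quotient.mk_surjective (I • ⊤ : Submodule B N) (e i)
  have hmk : ∀ c : Module.Free.ChooseBasisIndex (B ⧸ I) (N ⧸ (I • ⊤ : Submodule B N)) → B,
      (Submodule.Quotient.mk (∑ i, c i • n i) : N ⧸ (I • ⊤ : Submodule B N)) =
        ∑ i, (Ideal.Quotient.mk I (c i)) • e i := by
    intro c
    have : (Submodule.Quotient.mk (∑ i, c i • n i) : N ⧸ (I • ⊤ : Submodule B N)) =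
        (I • ⊤ : Submodule B N).mkQ (∑ i, c i • n i) := rfl
    rw [this, map_sum]
    refine Finset.sum_congr rfl fun i _ => ?_
    rw [map_smul, Submodule.mkQ_apply, hn]
    rfl
  -- linear independence
  have hdiv : ∀ (k : ℕ) (c : Module.Free.ChooseBasisIndex (B ⧸ I)
      (N ⧸ (I • ⊤ : Submodule B N)) → B), ∑ i, c i • n i = 0 → ∀ i, π ^ k ∣ c i := by
    intro k
    induction k with
    | zero => intro c _ i; simp
    | succ k ih =>
      intro c hc i
      have h0 : ∑ i, (Ideal.Quotient.mk I (c i)) • e i = 0 := by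
        rw [← hmk, hc]; rfl
      have h1 := (Fintype.linearIndependent_iff.mp e.linearIndependent) _ h0
      have h2 : ∀ i, π ∣ c i := by
        intro i
        have := h1 i
        rwa [Ideal.Quotient.eq_zero_iff_mem, hI, Ideal.mem_span_singleton] at this
      choose c' hc' using h2
      have h3 : π • ∑ i, c' i • n i = 0 := by
        rw [Finset.smul_sum, ← hc]
        refine Finset.sum_congr rfl fun i _ => ?_
        rw [smul_smul, ← hc']
      have h4 : ∑ i, c' i • n i = 0 := (smul_eq_zero.mp h3).resolve_left hπ.ne_zero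
      obtain ⟨d, hd⟩ := ih c' h4 i
      exact ⟨d, by rw [hc', hd]; ring⟩
  have hli : LinearIndependent B n := by
    rw [Fintype.linearIndependent_iff]
    intro c hc i
    by_contra hci
    obtain ⟨k, c'', hc'', hk⟩ := WfDvdMonoid.max_power_factor hci hπ.irreducible
    obtain ⟨d, hd⟩ := hdiv (k + 1) c hc i
    apply hc''
    refine ⟨d, ?_⟩
    have : π ^ k * c'' = π ^ k * (π * d) := by rw [← hk, hd]; ring
    exact mul_left_cancel₀ (pow_ne_zero _ hπ.ne_zero) this
  -- spanning (Nakayama)
  have hsp : ⊤ ≤ Submodule.span B (Set.range n) := by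
    have hIjac : I ≤ Ideal.jacobson ⊥ := by
      rw [IsLocalRing.jacobson_eq_maximalIdeal ⊥ bot_ne_top]
      exact IsLocalRing.le_maximalIdeal hIprime.ne_top
    apply Submodule.le_of_le_smul_of_le_jacobson_bot (I := I) Module.Finite.fg_top hIjac
    intro z _
    have hz := e.sum_repr (Submodule.Quotient.mk z)
    choose c hc using fun i => Ideal.Quotient.mk_surjective (e.repr (Submodule.Quotient.mk z) i)
    have h1 : (Submodule.Quotient.mk (∑ i, c i • n i) : N ⧸ (I • ⊤ : Submodule B N)) =
        Submodule.Quotient.mk z := by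
      rw [hmk, ← hz]
      refine Finset.sum_congr rfl fun i _ => ?_
      rw [hc]
    rw [Submodule.Quotient.eq] at h1
    have h2 : z = ∑ i, c i • n i - (∑ i, c i • n i - z) := by abel
    rw [h2]
    refine Submodule.sub_mem _ (Submodule.mem_sup_left ?_) (Submodule.mem_sup_right h1)
    exact Submodule.sum_mem _ fun i _ =>
      Submodule.smul_mem _ _ (Submodule.subset_span ⟨i, rfl⟩)
  exact Module.Free.of_basis (Module.Basis.mk hli hsp)

end T2

section TwoDim

variable {B A : Type*} [CommRing B] [IsDomain B] [IsLocalRing B] [IsNoetherianRing B]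
  [CommRing A] [IsDomain A] [IsDiscreteValuationRing A]
  (red : B →+* A) (hred : Function.Surjective red) (π : B) (hker : RingHom.ker red = Ideal.span {π})

include hred hker in
theorem isPrincipalIdealRing_quot : IsPrincipalIdealRing (B ⧸ Ideal.span {π}) := by
  rw [← hker]
  exact IsPrincipalIdealRing.of_surjective
    (RingHom.quotientKerEquivOfSurjective hred).symm.toRingHom
    (RingHom.quotientKerEquivOfSurjective hred).symm.surjective

include hred hker in
/-- (T2) -/
theorem free_of_reg (hπ : Prime π)
    {N : Type*} [AddCommGroup N] [Module B N] [Module.Finite B N] [Module.IsTorsionFree B N]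
    (hreg : ∀ b : B, ¬ π ∣ b → ∀ z w : N, b • z = π • w → ∃ z' : N, z = π • z') :
    Module.Free B N :=
  free_of_reg_aux hπ (isPrincipalIdealRing_quot red hred π hker) hreg

end TwoDim

section IC

variable {B : Type*} [CommRing B] [IsDomain B] [IsIntegrallyClosed B]
  {K L : Type*} [Field K] [Field L] [Algebra B K] [IsFractionRing B K] [Algebra K L] [Algebra B L]
  [IsScalarTower B K L]

/-- `π r` and `b r` integral over `B`, `π` prime, `π ∤ b` ⟹ `r` integral over `B`. -/
theorem isIntegral_of_smul (K : Type*) [Field K] [Algebra B K] [IsFractionRing B K] [Algebra K L]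
    [IsScalarTower B K L] [Algebra.IsAlgebraic K L]
    {π b : B} (hπ : Prime π) (hb : ¬ π ∣ b) (r : L)
    (h1 : IsIntegral B (π • r)) (h2 : IsIntegral B (b • r)) : IsIntegral B r := by
  have hb0 : b ≠ 0 := fun h => hb (h ▸ dvd_zero π)
  have hr : IsIntegral K r := Algebra.IsIntegral.isIntegral r
  set μ := minpoly K r with hμ
  have key : ∀ c : B, c ≠ 0 → IsIntegral B (c • r) → ∀ i, ∃ u : B,
      algebraMap B K u = μ.coeff i * algebraMap B K c ^ (μ.natDegree - i) := by
    intro c hc hcr i
    have hcK : algebraMap B K c ≠ 0 := by simpa using hc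
    have e1 : minpoly K (algebraMap B K c • r) = μ.scaleRoots (algebraMap B K c) :=
      IsIntegrallyClosed.minpoly_smul hcK hr
    have e2 : minpoly K (c • r) = (minpoly B (c • r)).map (algebraMap B K) :=
      minpoly.isIntegrallyClosed_eq_field_fractions' K hcr
    rw [algebraMap_smul, e2] at e1
    refine ⟨(minpoly B (c • r)).coeff i, ?_⟩
    rw [← coeff_map, e1, coeff_scaleRoots]
  have hlift : μ ∈ Polynomial.lifts (algebraMap B K) := by
    rw [Polynomial.lifts_iff_coeff_lifts]
    intro i
    obtain ⟨c, hc⟩ := mem_of_pow_mul_mem hπ hb _ _ (μ.coeff i) (key π hπ.ne_zero h1 i)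
      (key b hb0 h2 i)
    exact ⟨c, hc⟩
  obtain ⟨q, hq, -, hqm⟩ := Polynomial.lifts_and_natDegree_eq_and_monic hlift (minpoly.monic hr)
  refine ⟨q, hqm, ?_⟩
  have : eval₂ (algebraMap B L) r q = aeval r (q.map (algebraMap B K)) := by
    rw [aeval_def, eval₂_map, ← IsScalarTower.algebraMap_eq]
  rw [this, hq, hμ, minpoly.aeval]

end IC

section K

variable {B A : Type*} [CommRing B] [IsDomain B] [IsLocalRing B] [IsNoetherianRing B]
  [CommRing A] [IsDomain A] [IsDiscreteValuationRing A]
  (red : B →+* A) (hred : Function.Surjective red) (π : B) (hker : RingHom.ker red = Ideal.span {π})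

include hred hker in
theorem isIntegrallyClosed_of_twoDim (hπ : Prime π) : IsIntegrallyClosed B := by
  have := Fermat.Agent.S26.TwoDim.uniqueFactorizationMonoid red hred π hker hπ
  exact UniqueFactorizationMonoid.instIsIntegrallyClosed

include hred hker in
theorem finite_integralClosure (hπ : Prime π)
    (K L C : Type*) [Field K] [Field L] [Algebra B K] [IsFractionRing B K] [Algebra K L]
    [Algebra B L] [IsScalarTower B K L] [FiniteDimensional K L] [Algebra.IsSeparable K L]
    [CommRing C] [Algebra B C] [Algebra C L] [IsScalarTower B C L] [IsIntegralClosure C B L] :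
    Module.Finite B C := by
  have := isIntegrallyClosed_of_twoDim red hred π hker hπ
  exact IsIntegralClosure.finite B K L C

include hred hker in
/-- the regularity condition of (T2) for the integral closure. -/
theorem reg_integralClosure (hπ : Prime π)
    (K L C : Type*) [Field K] [Field L] [Algebra B K] [IsFractionRing B K] [Algebra K L]
    [Algebra B L] [IsScalarTower B K L] [Algebra.IsAlgebraic K L]
    [CommRing C] [Algebra B C] [Algebra C L] [IsScalarTower B C L] [IsIntegralClosure C B L]
    (b : B) (hb : ¬ π ∣ b) (z w : C)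
    (h : b • z = π • w) : ∃ z' : C, z = π • z' := by
  have := isIntegrallyClosed_of_twoDim red hred π hker hπ
  have hπL : algebraMap B L π ≠ 0 := by
    rw [IsScalarTower.algebraMap_apply B K L]
    simpa using hπ.ne_zero
  set r : L := (algebraMap B L π)⁻¹ * algebraMap C L z with hr
  have h1 : π • r = algebraMap C L z := by
    rw [hr, Algebra.smul_def, mul_inv_cancel_left₀ hπL]
  have h2 : b • r = algebraMap C L w := by
    have h' := congrArg (algebraMap C L) h
    rw [Algebra.smul_def, Algebra.smul_def, map_mul, map_mul,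
      ← IsScalarTower.algebraMap_apply, ← IsScalarTower.algebraMap_apply] at h'
    rw [hr, Algebra.smul_def, mul_left_comm, h', inv_mul_cancel_left₀ hπL]
  have hint : IsIntegral B r := by
    refine isIntegral_of_smul K hπ hb r ?_ ?_
    · rw [h1]; exact IsIntegralClosure.isIntegral_iff (A := C) |>.mpr ⟨z, rfl⟩
    · rw [h2]; exact IsIntegralClosure.isIntegral_iff (A := C) |>.mpr ⟨w, rfl⟩
  obtain ⟨z', hz'⟩ := (IsIntegralClosure.isIntegral_iff (A := C)).mp hint
  refine ⟨z', IsIntegralClosure.algebraMap_injective C B L ?_⟩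
  rw [Algebra.smul_def, map_mul, ← IsScalarTower.algebraMap_apply, hz', ← h1, Algebra.smul_def]

include hred hker in
/-- (K) the integral closure is free. -/
theorem free_integralClosure (hπ : Prime π)
    (K L C : Type*) [Field K] [Field L] [Algebra B K] [IsFractionRing B K] [Algebra K L]
    [Algebra B L] [IsScalarTower B K L] [FiniteDimensional K L] [Algebra.IsSeparable K L]
    [CommRing C] [Algebra B C] [Algebra C L] [IsScalarTower B C L] [IsIntegralClosure C B L] :
    Module.Free B C := by
  have := finite_integralClosure red hred π hker hπ K L C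
  have : Module.IsTorsionFree B L := by
    have : Module.IsTorsionFree B K := inferInstance
    exact Module.IsTorsionFree.trans_faithfulSMul B K L
  have : Module.IsTorsionFree B C := IsIntegralClosure.isTorsionFree B L
  exact free_of_reg red hred π hker hπ (reg_integralClosure red hred π hker hπ K L C)

include hred hker in
theorem finrank_integralClosure (hπ : Prime π)
    (K L C : Type*) [Field K] [Field L] [Algebra B K] [IsFractionRing B K] [Algebra K L]
    [Algebra B L] [IsScalarTower B K L] [FiniteDimensional K L] [Algebra.IsSeparable K L]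
    [CommRing C] [Algebra B C] [Algebra C L] [IsScalarTower B C L] [IsIntegralClosure C B L] :
    Module.finrank B C = Module.finrank K L := by
  have := isIntegrallyClosed_of_twoDim red hred π hker hπ
  have := finite_integralClosure red hred π hker hπ K L C
  have := free_integralClosure red hred π hker hπ K L C
  have : IsLocalization (Algebra.algebraMapSubmonoid C (nonZeroDivisors B)) L :=
    IsIntegralClosure.isLocalization B K L C
  let b := Module.Basis.localizationLocalization K (nonZeroDivisors B) L
    (Module.Free.chooseBasis B C)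
  rw [Module.finrank_eq_card_chooseBasisIndex, Module.finrank_eq_card_basis b]

end K

end Fermat.Agent.S36.Alg
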