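import Mathlib

/-!
# S36 / Alg : a two-generated maximal ideal in dimension two  (Mathlib only)

* `isDomain_of_principal`, `isDiscreteValuationRing_of_principal` : a noetherian local ring whose maximal ideal
  is generated by one non-nilpotent element is a DVR;
* `Reg2Gen.*` : `S` a noetherian local domain, `𝔪_S = (x, y)`, `𝔭` a prime with `⊥ < 𝔭 < 𝔪_S`.  Then `x` is a prime
  element and `S/(x)` is a DVR with uniformiser `y`  (Krull's principal ideal theorem).
* `Reg2Gen.exists_prime_of_integral` : such a `𝔭` exists if `S` is integral over a subring `B` having a nonzero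
  non-maximal prime ideal.
-/

set_option autoImplicit false
set_option linter.unusedSectionVars false

namespace Fermat.Agent.S36.Alg

open IsLocalRing

section Principal

variable {R : Type*} [CommRing R] [IsLocalRing R] [IsNoetherianRing R]

theorem exists_unit_mul_pow_of_principal {t : R} (hm : maximalIdeal R = Ideal.span {t})
    {x : R} (hx : x ≠ 0) : ∃ (u : R) (n : ℕ), IsUnit u ∧ x = u * t ^ n := by
  classical
  have hK : ⨅ i : ℕ, maximalIdeal R ^ i = ⊥ :=
    Ideal.iInf_pow_eq_bot_of_isLocalRing _ (IsLocalRing.maximalIdeal.isMaximal R).ne_top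
  have hex : ∃ n : ℕ, x ∉ maximalIdeal R ^ n := by
    by_contra hcon
    push Not at hcon
    apply hx
    have : x ∈ ⨅ i : ℕ, maximalIdeal R ^ i := by
      rw [Ideal.mem_iInf]; exact hcon
    rwa [hK] at this
  set n := Nat.find hex with hn
  have hn1 : x ∉ maximalIdeal R ^ n := Nat.find_spec hex
  have hn0 : n ≠ 0 := by
    intro h0
    rw [h0, pow_zero, Ideal.one_eq_top] at hn1
    exact hn1 trivial
  obtain ⟨k, hk⟩ : ∃ k, n = k + 1 := ⟨n - 1, by omega⟩
  have hk1 : x ∈ maximalIdeal R ^ k := by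
    by_contra hcon
    have := Nat.find_min' hex hcon
    omega
  rw [hm, Ideal.span_singleton_pow, Ideal.mem_span_singleton] at hk1
  obtain ⟨u, hu⟩ := hk1
  refine ⟨u, k, ?_, by rw [hu, mul_comm]⟩
  by_contra hnu
  apply hn1
  have hum : u ∈ maximalIdeal R := (IsLocalRing.mem_maximalIdeal u).mpr hnu
  rw [hm, Ideal.mem_span_singleton] at hum
  obtain ⟨v, rfl⟩ := hum
  rw [hk, hm, Ideal.span_singleton_pow, Ideal.mem_span_singleton, hu]
  exact ⟨v, by ring⟩

theorem isDomain_of_principal {t : R} (hm : maximalIdeal R = Ideal.span {t})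
    (ht : ∀ n : ℕ, t ^ n ≠ 0) : IsDomain R := by
  have : NoZeroDivisors R := by
    refine ⟨fun {a b} hab => ?_⟩
    by_contra hcon
    push Not at hcon
    obtain ⟨u, n, hu, rfl⟩ := exists_unit_mul_pow_of_principal hm hcon.1
    obtain ⟨v, k, hv, rfl⟩ := exists_unit_mul_pow_of_principal hm hcon.2
    apply ht (n + k)
    have h1 : (u * v) * t ^ (n + k) = 0 := by rw [← hab]; ring
    exact (hu.mul hv).mul_right_eq_zero.mp h1
  exact NoZeroDivisors.to_isDomain R

theorem isDiscreteValuationRing_of_principal [IsDomain R] {t : R}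
    (hm : maximalIdeal R = Ideal.span {t}) (ht : t ≠ 0) : IsDiscreteValuationRing R := by
  have hnf : ¬ IsField R := by
    rw [IsLocalRing.isField_iff_maximalIdeal_eq, hm, Ideal.span_singleton_eq_bot]
    exact ht
  have hprin : (maximalIdeal R).IsPrincipal := ⟨⟨_, hm⟩⟩
  exact ((IsDiscreteValuationRing.TFAE R hnf).out 0 4).mpr hprin

end Principal

namespace Reg2Gen

variable {S : Type*} [CommRing S] [IsDomain S] [IsLocalRing S] [IsNoetherianRing S] {x y : S}

theorem isLocalRing_quot (hm : maximalIdeal S = Ideal.span {x, y}) :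
    IsLocalRing (S ⧸ Ideal.span {x}) := by
  have hx : x ∈ maximalIdeal S := hm ▸ Ideal.subset_span (by simp)
  have : Nontrivial (S ⧸ Ideal.span {x}) := by
    apply Ideal.Quotient.nontrivial_iff.mpr
    intro h
    rw [Ideal.span_singleton_eq_top] at h
    exact (IsLocalRing.mem_maximalIdeal x).mp hx h
  exact IsLocalRing.of_surjective' _ Ideal.Quotient.mk_surjective

theorem maximalIdeal_quot (hm : maximalIdeal S = Ideal.span {x, y})
    [IsLocalRing (S ⧸ Ideal.span {x})] :
    maximalIdeal (S ⧸ Ideal.span {x}) = Ideal.span {Ideal.Quotient.mk (Ideal.span {x}) y} := by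
  have hsurj : Function.Surjective (Ideal.Quotient.mk (Ideal.span {x})) :=
    Ideal.Quotient.mk_surjective
  have hx : x ∈ maximalIdeal S := hm ▸ Ideal.subset_span (by simp)
  have hy : y ∈ maximalIdeal S := hm ▸ Ideal.subset_span (by simp)
  have hle : Ideal.span {x} ≤ maximalIdeal S := by
    rw [Ideal.span_le]; rintro z rfl; exact hx
  apply le_antisymm
  · intro r hr
    obtain ⟨z, rfl⟩ := hsurj r
    have hz : z ∈ maximalIdeal S := by
      rw [IsLocalRing.mem_maximalIdeal] at hr ⊢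
      exact fun h => hr (h.map _)
    rw [hm, Ideal.mem_span_pair] at hz
    obtain ⟨α, β, rfl⟩ := hz
    have h0 : Ideal.Quotient.mk (Ideal.span {x}) x = 0 :=
      Ideal.Quotient.eq_zero_iff_mem.mpr (Ideal.subset_span rfl)
    rw [map_add, map_mul, map_mul, h0, mul_zero, zero_add]
    exact Ideal.mul_mem_left _ _ (Ideal.subset_span rfl)
  · rw [Ideal.span_le]
    rintro z rfl
    show _ ∈ maximalIdeal (S ⧸ Ideal.span {x})
    rw [IsLocalRing.mem_maximalIdeal]
    intro hu
    obtain ⟨s, hs⟩ := hu.exists_right_inv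
    obtain ⟨s, rfl⟩ := hsurj s
    rw [← map_mul, ← map_one (Ideal.Quotient.mk (Ideal.span {x})), Ideal.Quotient.eq] at hs
    have h1 : (1 : S) ∈ maximalIdeal S := by
      have := Ideal.sub_mem _ (Ideal.mul_mem_right s _ hy) (hle hs)
      simp at this
    exact (Ideal.ne_top_iff_one _).mp (IsLocalRing.maximalIdeal.isMaximal S).ne_top h1

/-- Krull's principal ideal theorem: no power of `y` lies in `(x)`. -/
theorem pow_not_mem (hm : maximalIdeal S = Ideal.span {x, y})
    (𝔭 : Ideal S) [𝔭.IsPrime] (h0 : 𝔭 ≠ ⊥) (h1 : 𝔭 ≠ maximalIdeal S) (n : ℕ) :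
    y ^ n ∉ Ideal.span {x} := by
  intro hy
  have hx : x ∈ maximalIdeal S := hm ▸ Ideal.subset_span (by simp)
  have hmin : maximalIdeal S ∈ (Ideal.span {x}).minimalPrimes := by
    refine ⟨⟨inferInstance, ?_⟩, ?_⟩
    · rw [Ideal.span_le]; rintro z rfl; exact hx
    · rintro q ⟨hq, hxq⟩ -
      rw [hm, Ideal.span_le]
      rintro z (rfl | rfl)
      · exact hxq (Ideal.subset_span rfl)
      · exact hq.mem_of_pow_mem n (hxq hy)
  have hht := Ideal.height_le_one_of_isPrincipal_of_mem_minimalPrimes (Ideal.span {x}) _ hmin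
  have hlt : 𝔭 < maximalIdeal S :=
    lt_of_le_of_ne (IsLocalRing.le_maximalIdeal (Ideal.IsPrime.ne_top inferInstance)) h1
  have h2 := (Ideal.height_le_iff (n := 1)).mp (by exact_mod_cast hht) 𝔭 inferInstance hlt
  have h3 : 𝔭.height = 0 := by
    have : 𝔭.height < 1 := by exact_mod_cast h2
    exact Order.lt_one_iff.mp this
  exact h0 (Ideal.height_eq_zero_iff_eq_bot.mp h3)

theorem isDomain_quot (hm : maximalIdeal S = Ideal.span {x, y})
    (𝔭 : Ideal S) [𝔭.IsPrime] (h0 : 𝔭 ≠ ⊥) (h1 : 𝔭 ≠ maximalIdeal S) :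
    IsDomain (S ⧸ Ideal.span {x}) := by
  have := isLocalRing_quot hm
  refine isDomain_of_principal (maximalIdeal_quot hm) fun n hn => ?_
  rw [← map_pow, Ideal.Quotient.eq_zero_iff_mem] at hn
  exact pow_not_mem hm 𝔭 h0 h1 n hn

theorem prime (hm : maximalIdeal S = Ideal.span {x, y})
    (𝔭 : Ideal S) [𝔭.IsPrime] (h0 : 𝔭 ≠ ⊥) (h1 : 𝔭 ≠ maximalIdeal S) : Prime x := by
  have hd := isDomain_quot hm 𝔭 h0 h1
  have hp : (Ideal.span {x}).IsPrime := (Ideal.Quotient.isDomain_iff_prime _).mp hd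
  have hx0 : x ≠ 0 := by
    rintro rfl
    -- then `𝔪 = (y)`, and `𝔭 ≠ ⊥`, `𝔭 < 𝔪` contradicts `pow_not_mem` via height; use `y ^ n ∉ (0)` only
    have hmin : maximalIdeal S ∈ (Ideal.span {y}).minimalPrimes := by
      have hy : y ∈ maximalIdeal S := hm ▸ Ideal.subset_span (by simp)
      refine ⟨⟨inferInstance, ?_⟩, ?_⟩
      · rw [Ideal.span_le]; rintro z rfl; exact hy
      · rintro q ⟨hq, hyq⟩ -
        rw [hm, Ideal.span_le]
        rintro z (rfl | rfl)
        · exact Ideal.zero_mem _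
        · exact hyq (Ideal.subset_span rfl)
    have hht := Ideal.height_le_one_of_isPrincipal_of_mem_minimalPrimes (Ideal.span {y}) _ hmin
    have hlt : 𝔭 < maximalIdeal S :=
      lt_of_le_of_ne (IsLocalRing.le_maximalIdeal (Ideal.IsPrime.ne_top inferInstance)) h1
    have h2 := (Ideal.height_le_iff (n := 1)).mp (by exact_mod_cast hht) 𝔭 inferInstance hlt
    have h3 : 𝔭.height = 0 := by
      have : 𝔭.height < 1 := by exact_mod_cast h2
      exact Order.lt_one_iff.mp this
    exact h0 (Ideal.height_eq_zero_iff_eq_bot.mp h3)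
  exact (Ideal.span_singleton_prime hx0).mp hp

theorem isDiscreteValuationRing_quot (hm : maximalIdeal S = Ideal.span {x, y})
    (𝔭 : Ideal S) [𝔭.IsPrime] (h0 : 𝔭 ≠ ⊥) (h1 : 𝔭 ≠ maximalIdeal S)
    [IsDomain (S ⧸ Ideal.span {x})] : IsDiscreteValuationRing (S ⧸ Ideal.span {x}) := by
  have := isLocalRing_quot hm
  refine isDiscreteValuationRing_of_principal (maximalIdeal_quot hm) fun hn => ?_
  rw [Ideal.Quotient.eq_zero_iff_mem] at hn
  exact pow_not_mem hm 𝔭 h0 h1 1 (by simpa using hn)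

theorem irreducible_mk (hm : maximalIdeal S = Ideal.span {x, y})
    (𝔭 : Ideal S) [𝔭.IsPrime] (h0 : 𝔭 ≠ ⊥) (h1 : 𝔭 ≠ maximalIdeal S)
    [IsDomain (S ⧸ Ideal.span {x})] : Irreducible (Ideal.Quotient.mk (Ideal.span {x}) y) := by
  have := isDiscreteValuationRing_quot hm 𝔭 h0 h1
  rw [IsDiscreteValuationRing.irreducible_iff_uniformizer]
  exact maximalIdeal_quot hm

/-- a prime strictly between `⊥` and `𝔪_S`, from a prime of a subring over which `S` is integral. -/
theorem exists_prime_of_integral {B : Type*} [CommRing B] [Algebra B S] [Algebra.IsIntegral B S]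
    [FaithfulSMul B S] (P : Ideal B) [P.IsPrime] (hP0 : P ≠ ⊥) (hPm : ¬ P.IsMaximal) :
    ∃ 𝔭 : Ideal S, 𝔭.IsPrime ∧ 𝔭 ≠ ⊥ ∧ 𝔭 ≠ maximalIdeal S := by
  obtain ⟨𝔭, hp, hcomap⟩ := Ideal.exists_ideal_over_prime_of_isIntegral P (⊥ : Ideal S) (by
    intro b hb
    rw [Ideal.mem_comap, Ideal.mem_bot] at hb
    have : b = 0 := (FaithfulSMul.algebraMap_injective B S) (by rw [hb, map_zero])
    rw [this]; exact Ideal.zero_mem _)
  obtain ⟨hprime, hc⟩ := hcomap
  refine ⟨𝔭, hprime, ?_, ?_⟩
  · rintro rfl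
    apply hP0
    rw [← hc, eq_bot_iff]
    intro b hb
    rw [Ideal.mem_comap, Ideal.mem_bot] at hb
    exact (FaithfulSMul.algebraMap_injective B S) (by rw [hb, map_zero])
  · rintro rfl
    apply hPm
    rw [← hc]
    exact Ideal.isMaximal_comap_of_isIntegral_of_isMaximal (maximalIdeal S)

end Reg2Gen

end Fermat.Agent.S36.Alg
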