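import Mathlib
import Fermat.Agent.S26.Alg.TwoDim
import Fermat.Agent.S36.Alg.Reg2Gen

/-!
# S36 / Alg : (R4), the "hypersurface computation", abstract form

`O'` a noetherian local domain with `𝔪' = (π, T)`, `π` prime, `(π) ≠ 𝔪'`.
`P ∈ O'[X]` monic of degree `≥ 2`, `P ≡ X^n mod 𝔪'`,
`P.coeff 0 = π u₀ + T r` (`u₀` a unit, `r ∈ 𝔪'`), `P.coeff 1 = T v + π r₁` (`v` a unit).
`S ⊇ O'` a domain generated over `O'` by two DISTINCT roots `x ≠ y` of `P`.

Then `S` is finite over `O'`, noetherian, LOCAL, `𝔪_S = (x, y)`, `x` is a prime element, `S/(x)` is a DVR with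
uniformiser `y`, `S` is a UFD (so integrally closed: it is the integral closure of `O'` in its fraction field).

No degree hypothesis (`[Frac S : Frac O']`) and no presentation of `S` is needed: `S/(x)` is a DVR by Krull's
principal ideal theorem (`Reg2Gen`).
-/

set_option autoImplicit false
set_option linter.unusedSectionVars false

open Polynomial IsLocalRing

namespace Fermat.Agent.S36.Alg.R4

variable {O' : Type*} [CommRing O'] [IsDomain O'] [IsLocalRing O'] [IsNoetherianRing O']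
  {S : Type*} [CommRing S] [IsDomain S] [Algebra O' S] [FaithfulSMul O' S] {x y : S}
  {P : O'[X]}

section basic

theorem isIntegral (hgen : Algebra.adjoin O' {x, y} = ⊤) (hmonic : P.Monic)
    (hx : aeval x P = 0) (hy : aeval y P = 0) : Algebra.IsIntegral O' S := by
  refine ⟨fun s => ?_⟩
  have h1 : Algebra.adjoin O' {x, y} ≤ integralClosure O' S := by
    apply Algebra.adjoin_le
    rintro z (rfl | rfl)
    · exact ⟨P, hmonic, hx⟩
    · exact ⟨P, hmonic, hy⟩
  rw [hgen] at h1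
  exact h1 trivial

theorem finiteType (hgen : Algebra.adjoin O' {x, y} = ⊤) : Algebra.FiniteType O' S := by
  classical
  exact ⟨⟨{x, y}, by simpa using hgen⟩⟩

theorem finite (hgen : Algebra.adjoin O' {x, y} = ⊤) (hmonic : P.Monic)
    (hx : aeval x P = 0) (hy : aeval y P = 0) : Module.Finite O' S := by
  have := isIntegral hgen hmonic hx hy
  have := finiteType (O' := O') hgen
  exact Algebra.IsIntegral.finite

theorem isNoetherianRing (hgen : Algebra.adjoin O' {x, y} = ⊤) : IsNoetherianRing S := by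
  have := finiteType (O' := O') hgen
  exact Algebra.FiniteType.isNoetherianRing O' S

/-- `P.coeff 0 ∈ (x)`. -/
theorem coeff_zero_mem (hx : aeval x P = 0) :
    algebraMap O' S (P.coeff 0) ∈ Ideal.span {x, y} := by
  have h := congrArg (aeval x) (Polynomial.divX_mul_X_add P)
  rw [hx, map_add, map_mul, aeval_X, aeval_C] at h
  have h1 : algebraMap O' S (P.coeff 0) = -(aeval x (divX P)) * x := by linear_combination h
  rw [h1]
  exact Ideal.mul_mem_left _ _ (Ideal.subset_span (by simp))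

/-- `P.coeff 1 ∈ (x, y)`. -/
theorem coeff_one_mem (hxy : x ≠ y) (hx : aeval x P = 0) (hy : aeval y P = 0) :
    algebraMap O' S (P.coeff 1) ∈ Ideal.span {x, y} := by
  set Q := divX P with hQ
  set Q' := divX Q with hQ'
  have hP : P = (Q' * X + C (P.coeff 1)) * X + C (P.coeff 0) := by
    have h1 := Polynomial.divX_mul_X_add P
    have h2 := Polynomial.divX_mul_X_add Q
    have h3 : Q.coeff 0 = P.coeff 1 := by rw [hQ, coeff_divX]
    rw [h3] at h2
    rw [hQ', h2, hQ, h1]
  have ex : aeval x P = (aeval x Q' * x + algebraMap O' S (P.coeff 1)) * x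
      + algebraMap O' S (P.coeff 0) := by
    conv_lhs => rw [hP]
    simp only [map_add, map_mul, aeval_X, aeval_C]
  have ey : aeval y P = (aeval y Q' * y + algebraMap O' S (P.coeff 1)) * y
      + algebraMap O' S (P.coeff 0) := by
    conv_lhs => rw [hP]
    simp only [map_add, map_mul, aeval_X, aeval_C]
  obtain ⟨D, hD⟩ : x - y ∣ aeval x Q' - aeval y Q' := by
    have := Polynomial.sub_dvd_eval_sub x y (Q'.map (algebraMap O' S))
    rwa [eval_map_algebraMap, eval_map_algebraMap] at this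
  have hmain : (x - y) * (algebraMap O' S (P.coeff 1) + (aeval x Q' * (x + y) + D * y ^ 2)) = 0 := by
    have h0 : aeval x P - aeval y P = 0 := by rw [hx, hy, sub_zero]
    rw [ex, ey] at h0
    linear_combination h0 - y ^ 2 * hD
  have h1 := (mul_eq_zero.mp hmain).resolve_left (sub_ne_zero.mpr hxy)
  have h2 : algebraMap O' S (P.coeff 1) = -(aeval x Q') * x + (-(aeval x Q') - D * y) * y := by
    linear_combination h1
  rw [h2]
  exact Ideal.add_mem _ (Ideal.mul_mem_left _ _ (Ideal.subset_span (by simp)))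
    (Ideal.mul_mem_left _ _ (Ideal.subset_span (by simp)))

end basic

section main

variable {π T u₀ r v r₁ : O'}

/-- `π, T ∈ (x, y)`. -/
theorem map_maximalIdeal_le (hm' : maximalIdeal O' = Ideal.span {π, T}) (hxy : x ≠ y)
    (hx : aeval x P = 0) (hy : aeval y P = 0)
    (hu₀ : IsUnit u₀) (hr : r ∈ maximalIdeal O') (hv : IsUnit v)
    (hc0 : P.coeff 0 = π * u₀ + T * r) (hc1 : P.coeff 1 = T * v + π * r₁) :
    ∀ a ∈ maximalIdeal O', algebraMap O' S a ∈ Ideal.span {x, y} := by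
  have h0 := coeff_zero_mem (y := y) hx
  have h1 := coeff_one_mem hxy hx hy
  obtain ⟨v', hv'⟩ := hv.exists_left_inv
  set w := u₀ - v' * r₁ * r with hw
  have hwu : IsUnit w := by
    by_contra hnu
    have hwm : w ∈ maximalIdeal O' := (IsLocalRing.mem_maximalIdeal w).mpr hnu
    have : u₀ ∈ maximalIdeal O' := by
      have e : u₀ = w + v' * r₁ * r := by rw [hw]; ring
      rw [e]
      exact Ideal.add_mem _ hwm (Ideal.mul_mem_left _ _ hr)
    exact (IsLocalRing.mem_maximalIdeal u₀).mp this hu₀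
  obtain ⟨w', hw'⟩ := hwu.exists_left_inv
  have eπ : π = w' * (P.coeff 0 - v' * r * P.coeff 1) := by
    rw [hc0, hc1]
    linear_combination (-π) * hw' + (w' * T * r) * hv'
  have hπ : algebraMap O' S π ∈ Ideal.span {x, y} := by
    rw [eπ, map_mul, map_sub, map_mul]
    exact Ideal.mul_mem_left _ _ (Ideal.sub_mem _ h0 (Ideal.mul_mem_left _ _ h1))
  have eT : T = v' * (P.coeff 1 - π * r₁) := by
    rw [hc1]
    linear_combination (-T) * hv'
  have hT : algebraMap O' S T ∈ Ideal.span {x, y} := by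
    rw [eT, map_mul, map_sub, map_mul (algebraMap O' S) π]
    exact Ideal.mul_mem_left _ _ (Ideal.sub_mem _ h1 (Ideal.mul_mem_right _ _ hπ))
  intro a ha
  rw [hm', Ideal.mem_span_pair] at ha
  obtain ⟨α, β, rfl⟩ := ha
  rw [map_add, map_mul, map_mul]
  exact Ideal.add_mem _ (Ideal.mul_mem_left _ _ hπ) (Ideal.mul_mem_left _ _ hT)

/-- every element of `S` is congruent to an element of `O'` modulo `(x, y)`. -/
theorem exists_sub_mem (hgen : Algebra.adjoin O' {x, y} = ⊤) (s : S) :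
    ∃ a : O', s - algebraMap O' S a ∈ Ideal.span {x, y} := by
  have hs : s ∈ Algebra.adjoin O' {x, y} := by rw [hgen]; trivial
  induction hs using Algebra.adjoin_induction with
  | mem z hz =>
    refine ⟨0, ?_⟩
    rw [map_zero, sub_zero]
    exact Ideal.subset_span hz
  | algebraMap a => exact ⟨a, by simp⟩
  | add s t _ _ hs ht =>
    obtain ⟨a, ha⟩ := hs
    obtain ⟨b, hb⟩ := ht
    refine ⟨a + b, ?_⟩
    have : s + t - algebraMap O' S (a + b) = (s - algebraMap O' S a) + (t - algebraMap O' S b) := by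
      rw [map_add]; ring
    rw [this]
    exact Ideal.add_mem _ ha hb
  | mul s t _ _ hs ht =>
    obtain ⟨a, ha⟩ := hs
    obtain ⟨b, hb⟩ := ht
    refine ⟨a * b, ?_⟩
    have : s * t - algebraMap O' S (a * b) =
        (s - algebraMap O' S a) * t + algebraMap O' S a * (t - algebraMap O' S b) := by
      rw [map_mul]; ring
    rw [this]
    exact Ideal.add_mem _ (Ideal.mul_mem_right _ _ ha) (Ideal.mul_mem_left _ _ hb)

/-- a root of `P ≡ X^n mod 𝔪'` lies in every maximal ideal. -/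
theorem root_mem (hmonic : P.Monic) (hcoef : ∀ i < P.natDegree, P.coeff i ∈ maximalIdeal O')
    {z : S} (hz : aeval z P = 0) (𝔫 : Ideal S) [𝔫.IsPrime]
    (h𝔫 : ∀ a ∈ maximalIdeal O', algebraMap O' S a ∈ 𝔫) : z ∈ 𝔫 := by
  have h := congrArg (aeval z) hmonic.as_sum
  rw [hz, map_add, map_pow, aeval_X, map_sum] at h
  have h1 : z ^ P.natDegree = -∑ i ∈ Finset.range P.natDegree, aeval z (C (P.coeff i) * X ^ i) := by
    linear_combination -h
  have h2 : z ^ P.natDegree ∈ 𝔫 := by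
    rw [h1]
    refine Ideal.neg_mem_iff _ |>.mpr (Ideal.sum_mem _ fun i hi => ?_)
    rw [map_mul, aeval_C]
    exact Ideal.mul_mem_right _ _ (h𝔫 _ (hcoef i (Finset.mem_range.mp hi)))
  exact Ideal.IsPrime.mem_of_pow_mem inferInstance _ h2

theorem eq_span_of_isMaximal (hm' : maximalIdeal O' = Ideal.span {π, T})
    (hgen : Algebra.adjoin O' {x, y} = ⊤) (hxy : x ≠ y) (hmonic : P.Monic)
    (hcoef : ∀ i < P.natDegree, P.coeff i ∈ maximalIdeal O')
    (hx : aeval x P = 0) (hy : aeval y P = 0)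
    (hu₀ : IsUnit u₀) (hr : r ∈ maximalIdeal O') (hv : IsUnit v)
    (hc0 : P.coeff 0 = π * u₀ + T * r) (hc1 : P.coeff 1 = T * v + π * r₁)
    (𝔫 : Ideal S) (h𝔫 : 𝔫.IsMaximal) : 𝔫 = Ideal.span {x, y} := by
  have hint := isIntegral hgen hmonic hx hy
  have hcomap : 𝔫.comap (algebraMap O' S) = maximalIdeal O' :=
    IsLocalRing.eq_maximalIdeal (Ideal.isMaximal_comap_of_isIntegral_of_isMaximal 𝔫)
  have hle : ∀ a ∈ maximalIdeal O', algebraMap O' S a ∈ 𝔫 := by
    intro a ha
    rw [← hcomap] at ha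
    exact ha
  have hJ := map_maximalIdeal_le (S := S) hm' hxy hx hy hu₀ hr hv hc0 hc1
  apply le_antisymm
  · intro s hs
    obtain ⟨a, ha⟩ := exists_sub_mem (O' := O') hgen s
    have hJ𝔫 : Ideal.span {x, y} ≤ 𝔫 := by
      rw [Ideal.span_le]
      rintro z (rfl | rfl)
      · exact root_mem hmonic hcoef hx 𝔫 hle
      · exact root_mem hmonic hcoef hy 𝔫 hle
    have h1 : algebraMap O' S a ∈ 𝔫 := by
      have := Ideal.sub_mem _ hs (hJ𝔫 ha)
      simpa using this
    have h2 : a ∈ maximalIdeal O' := by rw [← hcomap]; exact h1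
    have := Ideal.add_mem _ ha (hJ a h2)
    simpa using this
  · rw [Ideal.span_le]
    rintro z (rfl | rfl)
    · exact root_mem hmonic hcoef hx 𝔫 hle
    · exact root_mem hmonic hcoef hy 𝔫 hle

theorem isLocalRing (hm' : maximalIdeal O' = Ideal.span {π, T})
    (hgen : Algebra.adjoin O' {x, y} = ⊤) (hxy : x ≠ y) (hmonic : P.Monic)
    (hcoef : ∀ i < P.natDegree, P.coeff i ∈ maximalIdeal O')
    (hx : aeval x P = 0) (hy : aeval y P = 0)
    (hu₀ : IsUnit u₀) (hr : r ∈ maximalIdeal O') (hv : IsUnit v)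
    (hc0 : P.coeff 0 = π * u₀ + T * r) (hc1 : P.coeff 1 = T * v + π * r₁) : IsLocalRing S := by
  obtain ⟨𝔫, h𝔫⟩ := Ideal.exists_maximal S
  refine IsLocalRing.of_unique_max_ideal ⟨𝔫, h𝔫, fun 𝔫' h𝔫' => ?_⟩
  rw [eq_span_of_isMaximal hm' hgen hxy hmonic hcoef hx hy hu₀ hr hv hc0 hc1 𝔫 h𝔫,
    eq_span_of_isMaximal hm' hgen hxy hmonic hcoef hx hy hu₀ hr hv hc0 hc1 𝔫' h𝔫']

theorem maximalIdeal_eq [IsLocalRing S] (hm' : maximalIdeal O' = Ideal.span {π, T})
    (hgen : Algebra.adjoin O' {x, y} = ⊤) (hxy : x ≠ y) (hmonic : P.Monic)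
    (hcoef : ∀ i < P.natDegree, P.coeff i ∈ maximalIdeal O')
    (hx : aeval x P = 0) (hy : aeval y P = 0)
    (hu₀ : IsUnit u₀) (hr : r ∈ maximalIdeal O') (hv : IsUnit v)
    (hc0 : P.coeff 0 = π * u₀ + T * r) (hc1 : P.coeff 1 = T * v + π * r₁) :
    maximalIdeal S = Ideal.span {x, y} :=
  eq_span_of_isMaximal hm' hgen hxy hmonic hcoef hx hy hu₀ hr hv hc0 hc1 _
    (IsLocalRing.maximalIdeal.isMaximal S)

/-- **(R4)**, summary. -/
theorem main (hm' : maximalIdeal O' = Ideal.span {π, T}) (hπ : Prime π)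
    (hπm : Ideal.span {π} ≠ maximalIdeal O')
    (hgen : Algebra.adjoin O' {x, y} = ⊤) (hxy : x ≠ y) (hmonic : P.Monic)
    (hcoef : ∀ i < P.natDegree, P.coeff i ∈ maximalIdeal O')
    (hx : aeval x P = 0) (hy : aeval y P = 0)
    (hu₀ : IsUnit u₀) (hr : r ∈ maximalIdeal O') (hv : IsUnit v)
    (hc0 : P.coeff 0 = π * u₀ + T * r) (hc1 : P.coeff 1 = T * v + π * r₁) :
    Module.Finite O' S ∧ IsNoetherianRing S ∧ ∃ _ : IsLocalRing S,
      maximalIdeal S = Ideal.span {x, y} ∧ Prime x ∧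
      (∃ _ : IsDomain (S ⧸ Ideal.span {x}), IsDiscreteValuationRing (S ⧸ Ideal.span {x}) ∧
        Irreducible (Ideal.Quotient.mk (Ideal.span {x}) y)) ∧
      UniqueFactorizationMonoid S := by
  have hfin := finite hgen hmonic hx hy
  have hnoeth := isNoetherianRing (O' := O') hgen
  have hloc := isLocalRing hm' hgen hxy hmonic hcoef hx hy hu₀ hr hv hc0 hc1
  have hmax := maximalIdeal_eq hm' hgen hxy hmonic hcoef hx hy hu₀ hr hv hc0 hc1
  have hint := isIntegral hgen hmonic hx hy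
  have hPprime : (Ideal.span {π}).IsPrime := (Ideal.span_singleton_prime hπ.ne_zero).mpr hπ
  obtain ⟨𝔭, hp, hp0, hp1⟩ := Reg2Gen.exists_prime_of_integral (S := S) (Ideal.span {π})
    (by rw [Ne, Ideal.span_singleton_eq_bot]; exact hπ.ne_zero)
    (fun h => hπm (IsLocalRing.eq_maximalIdeal h))
  have hxp := Reg2Gen.prime hmax 𝔭 hp0 hp1
  have hdom := Reg2Gen.isDomain_quot hmax 𝔭 hp0 hp1
  have hdvr := Reg2Gen.isDiscreteValuationRing_quot hmax 𝔭 hp0 hp1
  refine ⟨hfin, hnoeth, hloc, hmax, hxp, ⟨hdom, hdvr, Reg2Gen.irreducible_mk hmax 𝔭 hp0 hp1⟩, ?_⟩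
  exact Fermat.Agent.S26.TwoDim.uniqueFactorizationMonoid (Ideal.Quotient.mk (Ideal.span {x}))
    Ideal.Quotient.mk_surjective x Ideal.mk_ker hxp

end main

end Fermat.Agent.S36.Alg.R4
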