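import Mathlib
import Fermat.Agent.S26.Alg.TwoDim

/-!
# S36 / Alg : regular parameters of a two-dimensional regular local ring  ((h2), (h3) of the review)

Format of `S26/Alg/TwoDim.lean`: `B` a noetherian local domain, `π ∈ B` prime, `red : B → A` a surjection
onto a DVR with kernel `(π)`.

* `not_isPrincipal_maximalIdeal` : `𝔪_B` is not principal;
* `exists_maximalIdeal_eq` : `𝔪_B = (π, T)` for every `T` lifting a uniformiser of `A`;
* `RegPar.not_mem_sq`, `RegPar.prime` : if `𝔪_B = (c, t)` then `c ∉ 𝔪²` and `c` is prime;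
* `RegPar.isDiscreteValuationRing` : ... and `B/(c)` is a DVR, `RegPar.irreducible_mk`: with uniformiser `t`;
* `span_pair_eq_of_sub_mem_sq` : `𝔪 = (a, b)`, `c - u a ∈ 𝔪²`, `u` a unit ⟹ `𝔪 = (c, b)`.
-/

set_option autoImplicit false
set_option linter.unusedSectionVars false

namespace Fermat.Agent.S36.Alg

open IsLocalRing

section Nak

variable {B : Type*} [CommRing B] [IsLocalRing B] [IsNoetherianRing B]

/-- Nakayama: an ideal `J ≤ 𝔪` with `𝔪 ≤ J + 𝔪²` is `𝔪`. -/
theorem eq_maximalIdeal_of_le_sup_sq {J : Ideal B} (hJ : J ≤ maximalIdeal B)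
    (h : maximalIdeal B ≤ J ⊔ maximalIdeal B * maximalIdeal B) : J = maximalIdeal B := by
  refine le_antisymm hJ ?_
  have hjac : maximalIdeal B ≤ Ideal.jacobson ⊥ := by
    rw [IsLocalRing.jacobson_eq_maximalIdeal ⊥ bot_ne_top]
  exact Submodule.le_of_le_smul_of_le_jacobson_bot (I := maximalIdeal B)
    (IsNoetherian.noetherian _) hjac (by simpa using h)

theorem span_pair_eq_of_sub_mem_sq {a b c u : B} (hm : maximalIdeal B = Ideal.span {a, b})
    (hu : IsUnit u) (hc : c - u * a ∈ maximalIdeal B * maximalIdeal B) :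
    maximalIdeal B = Ideal.span {c, b} := by
  have ha : a ∈ maximalIdeal B := hm ▸ Ideal.subset_span (by simp)
  have hb : b ∈ maximalIdeal B := hm ▸ Ideal.subset_span (by simp)
  have hcm : c ∈ maximalIdeal B := by
    have h1 : c = (c - u * a) + u * a := by ring
    rw [h1]
    exact Ideal.add_mem _ (Ideal.mul_le_left hc) (Ideal.mul_mem_left _ _ ha)
  symm
  apply eq_maximalIdeal_of_le_sup_sq
  · rw [Ideal.span_le]
    rintro x (rfl | rfl)
    · exact hcm
    · exact hb
  · conv_lhs => rw [hm]
    rw [Ideal.span_le]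
    rintro x (rfl | rfl)
    · obtain ⟨v, hv⟩ := hu.exists_left_inv
      have h1 : x = v * c - v * (c - u * x) := by linear_combination (-x) * hv
      show x ∈ _
      rw [h1]
      refine Ideal.sub_mem _ (Ideal.mem_sup_left (Ideal.mul_mem_left _ _
        (Ideal.subset_span (by simp)))) (Ideal.mem_sup_right (Ideal.mul_mem_left _ _ hc))
    · exact Ideal.mem_sup_left (Ideal.subset_span (by simp))

end Nak

section TwoDim

variable {B A : Type*} [CommRing B] [IsDomain B] [IsLocalRing B] [IsNoetherianRing B]
  [CommRing A] [IsDomain A] [IsDiscreteValuationRing A]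
  (red : B →+* A) (hred : Function.Surjective red) (π : B) (hker : RingHom.ker red = Ideal.span {π})

include hred hker in
theorem span_pi_ne_maximalIdeal : Ideal.span {π} ≠ maximalIdeal B := by
  intro h
  have hmax : (RingHom.ker red).IsMaximal := by rw [hker, h]; infer_instance
  have hf : IsField (B ⧸ RingHom.ker red) :=
    (Ideal.Quotient.maximal_ideal_iff_isField_quotient _).mp hmax
  exact IsDiscreteValuationRing.not_isField A
    ((RingHom.quotientKerEquivOfSurjective hred).symm.toMulEquiv.isField hf)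

include hred hker in
theorem not_isPrincipal_maximalIdeal (hπ : Prime π) (t : B) :
    maximalIdeal B ≠ Ideal.span {t} := by
  intro h
  have hπm : π ∈ maximalIdeal B := Fermat.Agent.S26.TwoDim.pi_mem_maximalIdeal red π hker
  have htm : t ∈ maximalIdeal B := h ▸ Ideal.subset_span rfl
  rw [h, Ideal.mem_span_singleton] at hπm
  obtain ⟨s, hs⟩ := hπm
  rcases hπ.irreducible.isUnit_or_isUnit hs with ht | hsu
  · exact (IsLocalRing.mem_maximalIdeal t).mp htm ht
  · apply span_pi_ne_maximalIdeal red hred π hker
    rw [h, hs]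
    exact Ideal.span_singleton_mul_right_unit hsu t

include hred hker in
theorem exists_maximalIdeal_eq {T : B} (hT : Irreducible (red T)) :
    maximalIdeal B = Ideal.span {π, T} := by
  have hloc := Fermat.Agent.S26.TwoDim.isLocalHom_red red hred
  apply le_antisymm
  · intro x hx
    have hx' : red x ∈ maximalIdeal A := by
      rw [IsLocalRing.mem_maximalIdeal] at hx ⊢
      exact fun h => hx (Fermat.Agent.S26.TwoDim.isUnit_of_isUnit_red red hred h)
    rw [hT.maximalIdeal_eq, Ideal.mem_span_singleton] at hx'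
    obtain ⟨y, hy⟩ := hx'
    obtain ⟨y, rfl⟩ := hred y
    have h1 : x - T * y ∈ RingHom.ker red := by
      rw [RingHom.mem_ker, map_sub, map_mul, hy, sub_self]
    rw [hker, Ideal.mem_span_singleton] at h1
    obtain ⟨w, hw⟩ := h1
    rw [Ideal.mem_span_pair]
    exact ⟨w, y, by linear_combination -hw⟩
  · rw [Ideal.span_le]
    rintro x (rfl | rfl)
    · exact Fermat.Agent.S26.TwoDim.pi_mem_maximalIdeal red x hker
    · show x ∈ maximalIdeal B
      rw [IsLocalRing.mem_maximalIdeal]
      exact fun h => hT.not_isUnit (h.map red)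

namespace RegPar

variable {c t : B}

include hred hker in
theorem not_mem_sq (hπ : Prime π) (hm : maximalIdeal B = Ideal.span {c, t}) :
    c ∉ maximalIdeal B * maximalIdeal B := by
  intro hc
  have ht : t ∈ maximalIdeal B := hm ▸ Ideal.subset_span (by simp)
  apply not_isPrincipal_maximalIdeal red hred π hker hπ t
  symm
  apply eq_maximalIdeal_of_le_sup_sq
  · rw [Ideal.span_le]; rintro x rfl; exact ht
  · conv_lhs => rw [hm]
    rw [Ideal.span_le]
    rintro x (rfl | rfl)
    · exact Ideal.mem_sup_right hc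
    · exact Ideal.mem_sup_left (Ideal.subset_span rfl)

include hred hker in
theorem irreducible (hπ : Prime π) (hm : maximalIdeal B = Ideal.span {c, t}) : Irreducible c := by
  have hc : c ∈ maximalIdeal B := hm ▸ Ideal.subset_span (by simp)
  refine ⟨(IsLocalRing.mem_maximalIdeal c).mp hc, fun x y hxy => ?_⟩
  by_contra hcon
  push Not at hcon
  apply not_mem_sq red hred π hker hπ hm
  rw [hxy]
  exact Ideal.mul_mem_mul ((IsLocalRing.mem_maximalIdeal x).mpr hcon.1)
    ((IsLocalRing.mem_maximalIdeal y).mpr hcon.2)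

include hred hker in
theorem prime (hπ : Prime π) (hm : maximalIdeal B = Ideal.span {c, t}) : Prime c :=
  Fermat.Agent.S26.TwoDim.prime_of_irreducible red hred π hker hπ
    (irreducible red hred π hker hπ hm)

include hred hker in
theorem isDiscreteValuationRing (hπ : Prime π) (hm : maximalIdeal B = Ideal.span {c, t})
    [IsDomain (B ⧸ Ideal.span {c})] : IsDiscreteValuationRing (B ⧸ Ideal.span {c}) := by
  have hsurj : Function.Surjective (Ideal.Quotient.mk (Ideal.span {c})) :=
    Ideal.Quotient.mk_surjective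
  have hloc : IsLocalRing (B ⧸ Ideal.span {c}) := IsLocalRing.of_surjective' _ hsurj
  have hc : c ∈ maximalIdeal B := hm ▸ Ideal.subset_span (by simp)
  have hle : Ideal.span {c} ≤ maximalIdeal B := by
    rw [Ideal.span_le]; rintro x rfl; exact hc
  have ht : t ∈ maximalIdeal B := hm ▸ Ideal.subset_span (by simp)
  have hmax : maximalIdeal (B ⧸ Ideal.span {c}) =
      Ideal.span {Ideal.Quotient.mk (Ideal.span {c}) t} := by
    apply le_antisymm
    · intro r hr
      obtain ⟨x, rfl⟩ := hsurj r
      have hx : x ∈ maximalIdeal B := by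
        rw [IsLocalRing.mem_maximalIdeal] at hr ⊢
        exact fun h => hr (h.map _)
      rw [hm, Ideal.mem_span_pair] at hx
      obtain ⟨α, β, rfl⟩ := hx
      have h0 : Ideal.Quotient.mk (Ideal.span {c}) c = 0 :=
        Ideal.Quotient.eq_zero_iff_mem.mpr (Ideal.subset_span rfl)
      rw [map_add, map_mul, map_mul, h0, mul_zero, zero_add]
      exact Ideal.mul_mem_left _ _ (Ideal.subset_span rfl)
    · rw [Ideal.span_le]
      rintro x rfl
      show _ ∈ maximalIdeal (B ⧸ Ideal.span {c})
      rw [IsLocalRing.mem_maximalIdeal]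
      intro hu
      obtain ⟨s, hs⟩ := hu.exists_right_inv
      obtain ⟨s, rfl⟩ := hsurj s
      rw [← map_mul, ← map_one (Ideal.Quotient.mk (Ideal.span {c})), Ideal.Quotient.eq] at hs
      have h1 : (1 : B) ∈ maximalIdeal B := by
        have := Ideal.sub_mem _ (Ideal.mul_mem_right s _ ht) (hle hs)
        simp at this
      exact (Ideal.ne_top_iff_one _).mp (IsLocalRing.maximalIdeal.isMaximal B).ne_top h1
  have hnf : ¬ IsField (B ⧸ Ideal.span {c}) := by
    intro hf
    have h1 : (Ideal.span {c}).IsMaximal :=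
      (Ideal.Quotient.maximal_ideal_iff_isField_quotient _).mpr hf
    exact not_isPrincipal_maximalIdeal red hred π hker hπ c (IsLocalRing.eq_maximalIdeal h1).symm
  have hprin : (maximalIdeal (B ⧸ Ideal.span {c})).IsPrincipal := ⟨⟨_, hmax⟩⟩
  exact ((IsDiscreteValuationRing.TFAE (B ⧸ Ideal.span {c}) hnf).out 0 4).mpr hprin

include hred hker in
/-- `t` is a uniformiser of `B/(c)`. -/
theorem irreducible_mk (hπ : Prime π) (hm : maximalIdeal B = Ideal.span {c, t})
    [IsDomain (B ⧸ Ideal.span {c})] : Irreducible (Ideal.Quotient.mk (Ideal.span {c}) t) := by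
  have hdvr := isDiscreteValuationRing red hred π hker hπ hm
  rw [IsDiscreteValuationRing.irreducible_iff_uniformizer]
  have hsurj : Function.Surjective (Ideal.Quotient.mk (Ideal.span {c})) :=
    Ideal.Quotient.mk_surjective
  apply le_antisymm
  · intro r hr
    obtain ⟨x, rfl⟩ := hsurj r
    have hx : x ∈ maximalIdeal B := by
      rw [IsLocalRing.mem_maximalIdeal] at hr ⊢
      exact fun h => hr (h.map _)
    rw [hm, Ideal.mem_span_pair] at hx
    obtain ⟨α, β, rfl⟩ := hx
    have h0 : Ideal.Quotient.mk (Ideal.span {c}) c = 0 :=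
      Ideal.Quotient.eq_zero_iff_mem.mpr (Ideal.subset_span rfl)
    rw [map_add, map_mul, map_mul, h0, mul_zero, zero_add]
    exact Ideal.mul_mem_left _ _ (Ideal.subset_span rfl)
  · rw [Ideal.span_le]
    rintro x rfl
    show _ ∈ maximalIdeal (B ⧸ Ideal.span {c})
    rw [IsLocalRing.mem_maximalIdeal]
    intro hu
    have hc : c ∈ maximalIdeal B := hm ▸ Ideal.subset_span (by simp)
    have ht : t ∈ maximalIdeal B := hm ▸ Ideal.subset_span (by simp)
    have hle : Ideal.span {c} ≤ maximalIdeal B := by
      rw [Ideal.span_le]; rintro x rfl; exact hc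
    obtain ⟨s, hs⟩ := hu.exists_right_inv
    obtain ⟨s, rfl⟩ := hsurj s
    rw [← map_mul, ← map_one (Ideal.Quotient.mk (Ideal.span {c})), Ideal.Quotient.eq] at hs
    have h1 : (1 : B) ∈ maximalIdeal B := by
      have := Ideal.sub_mem _ (Ideal.mul_mem_right s _ ht) (hle hs)
      simp at this
    exact (Ideal.ne_top_iff_one _).mp (IsLocalRing.maximalIdeal.isMaximal B).ne_top h1

end RegPar

end TwoDim

end Fermat.Agent.S36.Alg
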